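/-
Programme MAZ (S15), chain link (7) **D3'** (helper24), file 1: the two characteristic-`ℓ'` inputs.

* `isIntegral_jpk`, `ord_jpk_nonneg` : in `k(j̃, j̃_p)` (`k` ANY field), `j̃_p` is integral over `k[j̃]`
  (the modular equation `P0` over `ℤ`), so `j̃_p` is regular wherever `j̃` is;
* `mapDomain_nonneg_of_fibre` : a push-forward of a divisor which is `≥ 0` on the fibre is `≥ 0`;
* `red_inf_j` : for ANY place reduction `r` with `RedFibre34.RedCuspHyp r`:
  `ord_{r ∞} j̃ = -1` EXACTLY  (so `RedCuspHyp` needs no fourth field);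
* `ord_jF_eq_zero_of_red_eq_inf`, `ord_jF_eq_zero_of_red_eq_zero` : no zero of `j` reduces to `r ∞`
  or to `r 0`  (helper86's remark: only the divisors matter).
-/
import Mathlib
import Fermat.Agent.MAZ.RedFibre34.Cusps
import Fermat.Agent.IG.VAL.XdIntegral15
import Fermat.Agent.IG.AN.Main12
import Fermat.Agent.RED.PUR.PlaceIntegral3
import Fermat.Agent.RED.TOP.FbarFacts20

set_option autoImplicit false
set_option linter.unusedSectionVars false
set_option linter.style.haveILetI false
set_option synthInstance.maxHeartbeats 400000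

noncomputable section

open HahnSeries IntermediateField AlgebraicCurve ModularCurve

namespace Fermat.Agent.MAZ.D3Prime24

open Fermat.Agent.X0 Fermat.Agent.X0.FF Fermat.Agent.MW.Bridge34
open Fermat.Agent.MAZ.HeckeCusp89 Fermat.Agent.MAZ.RedFibre34

/-! ### Integrality of `j̃_p` over `k[j̃]` -/

section Integral

variable (k : Type) [Field k] (p : ℕ) [NeZero p]

/-- `j̃_p` is integral over `k[j̃]` in `k(j̃, j̃_p)`, for every field `k`. -/
theorem isIntegral_jpk : IsIntegral (polyRing k (jk k p)) (jpk k p) := by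
  apply Fermat.Agent.RED.PUR.PlaceIntegral3.isIntegral_polyRing_of_map (K := k)
    (F' := LaurentSeries k)
  have h1 : algebraMap (modularFunctionFieldFullC k p) (LaurentSeries k) (jk k p) = jqModC k :=
    rfl
  have h2 : algebraMap (modularFunctionFieldFullC k p) (LaurentSeries k) (jpk k p) =
      Fermat.Agent.IG.VAL.ValInterface8.xdC k p := rfl
  rw [h1, h2]
  exact Fermat.Agent.IG.VAL.XdIntegral15.xdC_isIntegral_adjoin p
    (fun r hr _ _ => Fermat.Agent.IG.AN.Main12.p0 r hr) k p dvd_rfl

/-- `j̃_p` is regular wherever `j̃` is. -/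
theorem ord_jpk_nonneg (Q : Place k (modularFunctionFieldFullC k p))
    (h : 0 ≤ Q.ord (jk k p)) : 0 ≤ Q.ord (jpk k p) := by
  rw [← ffp_mem_iff_ord_nonneg] at h ⊢
  exact intRing_le_of_mem Q h ⟨jpk k p, isIntegral_jpk k p⟩

end Integral

/-! ### Push-forward -/

theorem mapDomain_nonneg_of_fibre {α β : Type*} (r : α → β) (E : α →₀ ℤ) (Q : β)
    (h : ∀ P, r P = Q → 0 ≤ E P) : 0 ≤ Finsupp.mapDomain r E Q := by
  classical
  rw [mapDomain_apply_eq_sum]
  apply Finset.sum_nonneg
  intro P _
  split_ifs with hP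
  · exact h P hP
  · exact le_rfl

/-! ### The exact pole order of `j̃` at `r ∞` -/

section RedInf

variable {p : ℕ} [NeZero p] {A : ValuationSubring Kbar} {k : Type} [Field k] {π : A →+* k}
  {r : Place Kbar (FF p) → Place k (modularFunctionFieldFullC k p)}

/-- **`ord_{r ∞} j̃ = -1`**, from `RedCuspHyp` alone. -/
theorem red_inf_j (hp : p.Prime) (hr : IsPlaceReductionAlong A π p r) (H : RedCuspHyp r) :
    (r (cuspInf p)).ord (jk k p) = -1 := by
  haveI : HasPrincipalDivisors Kbar (FF p) :=
    Fermat.Agent.RED.TOP.FbarFacts20.hasPrincipalDivisors_bar p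
  have CH := H.cuspHyp hp
  have hpp : (0 : ℤ) < (p : ℤ) := ppos
  have hJk : (Jf p A π).tok ≠ 0 := by
    rw [Jf_tok]
    exact jk_ne_zero k p
  have hJL : (Jf p A π).toL ≠ 0 := (Jf p A π).toL_ne_zero_of_tok hJk
  obtain ⟨D, hD, -⟩ := HasPrincipalDivisors.exists_divisor (K := Kbar) (Jf p A π).toL hJL
  have hpush := push_ord hr (Jf p A π) hJk D hD (r (cuspInf p))
  rw [Jf_tok] at hpush
  -- (a) `r ∞` is a pole of `j̃`
  have hneg : (r (cuspInf p)).ord (jk k p) < 0 := by
    by_contra hnn
    have h1 := ord_jpk_nonneg k p (r (cuspInf p)) (not_lt.mp hnn)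
    rw [H.red_inf_jp] at h1
    omega
  -- (b) the order is at least `-1`
  have hE : 0 ≤ Finsupp.mapDomain r (D + Finsupp.single (cuspInf p) 1) (r (cuspInf p)) := by
    apply mapDomain_nonneg_of_fibre
    intro P hP
    rw [Finsupp.add_apply, hD, Jf_toL]
    rcases eq_or_ne P (cuspInf p) with rfl | hne
    · rw [Finsupp.single_eq_same, CH.ord_inf_j]
      norm_num
    · rw [Finsupp.single_eq_of_ne hne, add_zero]
      by_contra hlt
      rcases CH.poles_j P (not_le.mp hlt) with h | h
      · exact hne h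
      · rw [h] at hP
        exact H.red_ne hP.symm
  rw [Finsupp.mapDomain_add, Finsupp.add_apply, Finsupp.mapDomain_single, Finsupp.single_eq_same,
    hpush] at hE
  omega

/-- No zero of `j` reduces to `r ∞`. -/
theorem ord_jF_eq_zero_of_red_eq_inf (hp : p.Prime) (hr : IsPlaceReductionAlong A π p r)
    (H : RedCuspHyp r) (z : Place Kbar (FF p)) (hz : r z = r (cuspInf p))
    (hzP : z ≠ cuspInf p) : z.ord (jL Kbar p) = 0 := by
  haveI : HasPrincipalDivisors Kbar (FF p) :=
    Fermat.Agent.RED.TOP.FbarFacts20.hasPrincipalDivisors_bar p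
  have CH := H.cuspHyp hp
  have h3 := ord_sub_const_eq_zero_of_pole hr (Jf p A π) (cuspInf p)
    (by rw [Jf_toL, CH.ord_inf_j]; norm_num)
    (by rw [Jf_toL, Jf_tok, red_inf_j hp hr H, CH.ord_inf_j])
    (by
      intro P hP hPpole
      rw [Jf_toL] at hPpole
      rcases CH.poles_j P hPpole with rfl | rfl
      · exact absurd rfl hP
      · exact H.red_ne.symm)
    0 z hz hzP
  rwa [Jf_toL, ZeroMemClass.coe_zero, map_zero, sub_zero] at h3

/-- No zero of `j` reduces to `r 0`. -/
theorem ord_jF_eq_zero_of_red_eq_zero (hp : p.Prime) (hr : IsPlaceReductionAlong A π p r)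
    (H : RedCuspHyp r) (z : Place Kbar (FF p)) (hz : r z = r (cuspZero p))
    (hzP : z ≠ cuspZero p) : z.ord (jL Kbar p) = 0 := by
  haveI : HasPrincipalDivisors Kbar (FF p) :=
    Fermat.Agent.RED.TOP.FbarFacts20.hasPrincipalDivisors_bar p
  have CH := H.cuspHyp hp
  have hpp : (0 : ℤ) < (p : ℤ) := ppos
  have h3 := ord_sub_const_eq_zero_of_pole hr (Jf p A π) (cuspZero p)
    (by rw [Jf_toL, CH.ord_zero_j]; omega)
    (by rw [Jf_toL, Jf_tok, H.red_zero_j, CH.ord_zero_j])
    (by
      intro P hP hPpole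
      rw [Jf_toL] at hPpole
      rcases CH.poles_j P hPpole with rfl | rfl
      · exact H.red_ne
      · exact absurd rfl hP)
    0 z hz hzP
  rwa [Jf_toL, ZeroMemClass.coe_zero, map_zero, sub_zero] at h3

end RedInf

end Fermat.Agent.MAZ.D3Prime24
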