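/-
Programme MAZ (S15), chain link (7) **D3'** (helper24), file 2: THE MODULAR-UNIT FORM OF THE FIBRE
CRITERION, in the consumer shape of `E3Asm58.e3Place_of_u` (`hD3u`) / report 1165 (7).

`p` prime, `ℓ' ≠ p` prime, `A ≤ ℚbar` a valuation subring over `ℓ'`, `r` ANY place reduction
(`IsPlaceReductionModL A p r`) with `H : RedFibre34.RedCuspHyp r` (the ONE structure hypothesis).
For a place `x` of `ℚbar·F_p` with `j(x) = a ∉ A` and `u(x) = c`, `u = Δ(q)/Δ(q^p)`:

  `d3_prime : (r x = r ∞ ∨ r x = r 0) ∧ (r x = r ∞ ↔ v_A(c) = v_A(a)^(p-1))`.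

Proof (divisors only, helper86's three-case argument):
* `f = u / j^(p-1)` has divisor `(p²-1)(0) - (p-1) Z_j`; if `r x = r ∞` the fibre of `r ∞` contains no
  zero of `f` (`r 0 ≠ r ∞`) and no pole of `f` (no zero of `j` reduces to `r ∞`, `CharL.lean`), hence
  `v_A(f(x)) = 1` (`valuation_eq_one_of_fibre`: otherwise `f - f(x)` resp. `1/f - 1/f(x)` reduces
  to `f̃` resp. `1/f̃` and a zero/pole of `f` lies in the fibre);
* `g = u^p j^(p-1)` has divisor `-(p²-1)(∞) + (p-1) Z_j`; if `r x = r 0` then likewise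
  `v_A(g(x)) = 1`, i.e. `v_A(c)^p = v_A(a)^(-(p-1)) < 1`, so `v_A(c) ≠ v_A(a)^(p-1)`.
The reductions `ũ`, `1/ũ` lie in `k(j̃, j̃_p)` by (R0a) over `A` (`ES/RED/ChartIntegralA1`).
-/
import Mathlib
import Fermat.Agent.MAZ.D3Prime24.CharL
import Fermat.Agent.ES.RED.ChartIntegralA1

set_option autoImplicit false
set_option linter.unusedSectionVars false
set_option linter.style.haveILetI false
set_option synthInstance.maxHeartbeats 400000

noncomputable section

open HahnSeries IntermediateField AlgebraicCurve ModularCurve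

namespace Fermat.Agent.MAZ.D3Prime24

open Fermat.Agent.X0 Fermat.Agent.X0.FF Fermat.Agent.MW.Bridge34
open Fermat.Agent.MAZ.HeckeCusp89 Fermat.Agent.MAZ.RedFibre34 Fermat.Agent.MAZ.Ogg24
open Fermat.Agent.IG.PR.Interface20 Fermat.Agent.RED.BASE.DeltaMem19

/-! ### The abstract three-case argument -/

section Abstract

variable {L : Type*} [Field L] [Algebra ℚ L] {A : ValuationSubring L} {k : Type*} [Field k]
  {π : A →+* k} {N : ℕ}
  {r : Place L (laurentBaseChange L (modularFunctionFieldFull N)) →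
    Place k (modularFunctionFieldFullC k N)}
  [HasPrincipalDivisors L (laurentBaseChange L (modularFunctionFieldFull N))]

/-- If the fibre of `r x` contains neither a zero nor a pole of the (non-constant) integral function
`f` with integral inverse, then the value `f(x)` is an `A`-unit. -/
theorem valuation_eq_one_of_fibre (hr : IsPlaceReductionAlong A π N r)
    (hπ : ∀ c : A, ¬ IsUnit c → π c = 0) (F G : IntFun A π N) (hFk : F.tok ≠ 0)
    (hGk : G.tok ≠ 0) (hFG : G.toL = (F.toL)⁻¹)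
    (P₁ : Place L (laurentBaseChange L (modularFunctionFieldFull N))) (hP₁ : P₁.ord F.toL ≠ 0)
    (x : Place L (laurentBaseChange L (modularFunctionFieldFull N))) {e : L}
    (hxe : IsVal x F.toL e)
    (hzero : ∀ z, r z = r x → ¬ 0 < z.ord F.toL)
    (hpole : ∀ z, r z = r x → ¬ z.ord F.toL < 0) :
    A.valuation e = 1 := by
  rcases lt_trichotomy (A.valuation e) 1 with hlt | heq | hgt
  · exfalso
    obtain ⟨c, hce, hc⟩ := exists_of_valuation_lt_one hπ hlt
    have hne : F.toL - algebraMap L _ (c : L) ≠ 0 := by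
      intro h0
      apply hP₁
      rw [sub_eq_zero.mp h0, ffp_ord_algebraMap]
    have hxe' : IsVal x F.toL (c : L) := by rw [hce]; exact hxe
    have hx : 0 < x.ord (F.toL - algebraMap L _ (c : L)) := by
      rcases isVal_iff_ord.mp hxe' with h | h
      · exact absurd (sub_eq_zero.mpr h) hne
      · exact h
    obtain ⟨z, hz, hzpos⟩ := exists_zero_of_zero_sub_const hr F hFk c hc x hne hx
    exact hzero z hz hzpos
  · exact heq
  · exfalso
    have he0 : e ≠ 0 := by
      rintro rfl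
      rw [map_zero] at hgt
      exact not_lt_zero hgt
    have hlt : A.valuation e⁻¹ < 1 := by
      rw [map_inv₀]
      exact inv_lt_one_of_one_lt₀ hgt
    obtain ⟨c, hce, hc⟩ := exists_of_valuation_lt_one hπ hlt
    have hne : G.toL - algebraMap L _ (c : L) ≠ 0 := by
      intro h0
      apply hP₁
      have h1 : P₁.ord G.toL = 0 := by rw [sub_eq_zero.mp h0, ffp_ord_algebraMap]
      rw [hFG, Place.ord_inv] at h1
      omega
    have hxe' : IsVal x G.toL (c : L) := by
      rw [hce, hFG]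
      exact hxe.inv he0
    have hx : 0 < x.ord (G.toL - algebraMap L _ (c : L)) := by
      rcases isVal_iff_ord.mp hxe' with h | h
      · exact absurd (sub_eq_zero.mpr h) hne
      · exact h
    obtain ⟨z, hz, hzpos⟩ := exists_zero_of_zero_sub_const hr G hGk c hc x hne hx
    rw [hFG, Place.ord_inv] at hzpos
    exact hpole z hz (by omega)

end Abstract

/-! ### (R0a) over `A`, in `coeffMap` form -/

section R0a

open Fermat.Agent.ES.RED.ChartIntegralA1 Fermat.Agent.RED.Interface4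

/-- The reduction of an `A`-integral element of `ℚbar·F_M` lies in `k(j̃(q^d) : d ∣ M)`, for
`A` over a prime `ℓ ∤ M` (`ChartIntegralA1.redSeries_mem_fullC`). -/
theorem coeffMap_residue_mem_fullC {ℓ : ℕ} [Fact ℓ.Prime] (A : ValuationSubring Kbar)
    (hA : A.LiesOverPrime ℓ) (M : ℕ) [NeZero M] (hℓM : ¬ ℓ ∣ M) (Y : LaurentSeries A)
    (hY : coeffMap A.subtype Y ∈ modularFunctionFieldBar M) :
    coeffMap (IsLocalRing.residue A) Y ∈
      modularFunctionFieldFullC (IsLocalRing.ResidueField A) M := by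
  have hy : (⟨_, hY⟩ : Fbar M) ∈ intF A M := ⟨Y, rfl⟩
  rw [← coe_redF_eq_of ℓ hA hℓM (y := ⟨⟨_, hY⟩, hy⟩) (Y := Y) rfl]
  exact (redF A M ℓ hA hℓM _).2

end R0a

/-! ### The modular unit as an integral function -/

section Unit

variable (p : ℕ) [NeZero p] {ℓ : ℕ} [Fact ℓ.Prime] (A : ValuationSubring Kbar)
  (hA : A.LiesOverPrime ℓ) (hℓp : ¬ ℓ ∣ p)

/-- `u = Δ(q)/Δ(q^p)` as an integral function. -/
def Vf : IntFun A (IsLocalRing.residue A) p where
  y := uqInv p A
  memL := by
    rw [coeffMap_uqInv]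
    exact (uPinv p).2
  memk := by
    apply coeffMap_residue_mem_fullC A hA p hℓp
    rw [coeffMap_uqInv]
    exact (uPinv p).2

/-- `1/u = Δ(q^p)/Δ(q)` as an integral function. -/
def Wf : IntFun A (IsLocalRing.residue A) p where
  y := uq A p
  memL := by
    rw [Fermat.Agent.IG.AN.DeltaQuotExp19.coeffMap_uq]
    exact (uP p).2
  memk := by
    apply coeffMap_residue_mem_fullC A hA p hℓp
    rw [Fermat.Agent.IG.AN.DeltaQuotExp19.coeffMap_uq]
    exact (uP p).2

theorem Vf_toL : (Vf p A hA hℓp).toL = uPinv p := Subtype.ext (coeffMap_uqInv p _)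

theorem Wf_toL : (Wf p A hA hℓp).toL = uP p :=
  Subtype.ext (Fermat.Agent.IG.AN.DeltaQuotExp19.coeffMap_uq _ p)

theorem Vf_tok_ne_zero : (Vf p A hA hℓp).tok ≠ 0 := by
  rw [IntFun.tok_ne_zero_iff]
  show coeffMap (IsLocalRing.residue A) (uqInv p A) ≠ 0
  rw [coeffMap_uqInv]
  exact left_ne_zero_of_mul_eq_one (uqInv_mul_uq p (IsLocalRing.ResidueField A))

theorem Wf_tok_ne_zero : (Wf p A hA hℓp).tok ≠ 0 := by
  rw [IntFun.tok_ne_zero_iff]
  show coeffMap (IsLocalRing.residue A) (uq A p) ≠ 0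
  rw [Fermat.Agent.IG.AN.DeltaQuotExp19.coeffMap_uq]
  exact right_ne_zero_of_mul_eq_one (uqInv_mul_uq p (IsLocalRing.ResidueField A))

end Unit

/-! ### Orders of `u` -/

section OrdU

variable (p : ℕ) [NeZero p]

theorem uPinv_eq_inv : uPinv p = (uP p)⁻¹ :=
  eq_inv_of_mul_eq_one_left (uPinv_mul_uP p)

theorem ord_cuspInf_uPinv : (cuspInf p).ord (uPinv p) = 1 - (p : ℤ) := by
  rw [uPinv_eq_inv, Place.ord_inv, ord_cuspInf_uP]
  ring

theorem ord_cuspZero_uPinv : (cuspZero p).ord (uPinv p) = (p : ℤ) - 1 := by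
  rw [uPinv_eq_inv, Place.ord_inv, ord_cuspZero_uP]
  ring

theorem ord_uPinv_of_nonneg (v : Place Kbar (FF p)) (hv : 0 ≤ v.ord (jF p)) :
    v.ord (uPinv p) = 0 := by
  rw [uPinv_eq_inv, Place.ord_inv, ord_uP_of_nonneg p v hv, neg_zero]

end OrdU

end Fermat.Agent.MAZ.D3Prime24
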