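/-
Programme MAZ (S15), chain link (7) **D3'** (helper24), file 3: the theorem `d3_prime` and its
consumer forms (`d3_prime_uInv`, `hD3u`).  See `Main.lean` for the proof sketch.
-/
import Mathlib
import Fermat.Agent.MAZ.D3Prime24.Main

set_option autoImplicit false
set_option linter.unusedSectionVars false
set_option linter.style.haveILetI false
set_option synthInstance.maxHeartbeats 400000

noncomputable section

open HahnSeries IntermediateField AlgebraicCurve ModularCurve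

namespace Fermat.Agent.MAZ.D3Prime24

open Fermat.Agent.X0 Fermat.Agent.X0.FF Fermat.Agent.MW.Bridge34
open Fermat.Agent.MAZ.HeckeCusp89 Fermat.Agent.MAZ.RedFibre34 Fermat.Agent.MAZ.Ogg24
open Fermat.Agent.IG.PR.Interface20 Fermat.Agent.RED.BASE.DeltaMem19

section Main

variable {p : ℕ} [NeZero p] {ℓ : ℕ} [Fact ℓ.Prime] (A : ValuationSubring Kbar)
  (hA : A.LiesOverPrime ℓ) (hℓp : ¬ ℓ ∣ p)
  {r : Place Kbar (FF p) →
    Place (IsLocalRing.ResidueField A) (modularFunctionFieldFullC (IsLocalRing.ResidueField A) p)}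

/-- The orders of `j` and `u` at a place which is not a cusp. -/
theorem ord_of_ne_cusps (hp : p.Prime) (z : Place Kbar (FF p)) (h1 : z ≠ cuspInf p)
    (h2 : z ≠ cuspZero p) : 0 ≤ z.ord (jF p) ∧ z.ord (uPinv p) = 0 := by
  have h : 0 ≤ z.ord (jF p) := by
    by_contra hlt
    rcases poles_jF p hp z (not_le.mp hlt) with h | h
    · exact h1 h
    · exact h2 h
  exact ⟨h, ord_uPinv_of_nonneg p z h⟩

include hA hℓp in
/-- **`r x = r ∞ ⟹ v_A(u(x)) = v_A(j(x))^(p-1)`.** -/
theorem valuation_eq_of_red_eq_inf (hp : p.Prime) (hr : IsPlaceReductionModL A p r)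
    (H : RedCuspHyp r) (x : Place Kbar (FF p)) {a c : Kbar} (ha : a ∉ A)
    (hxa : IsVal x (jF p) a) (hxc : IsVal x (uPinv p) c) (hx : r x = r (cuspInf p)) :
    A.valuation c = A.valuation a ^ (p - 1) := by
  haveI : HasPrincipalDivisors Kbar (FF p) :=
    Fermat.Agent.RED.TOP.FbarFacts20.hasPrincipalDivisors_bar p
  have ha0 : a ≠ 0 := fun h => ha (h ▸ A.zero_mem)
  have hp1 : (1 : ℤ) < (p : ℤ) := by exact_mod_cast hp.one_lt
  have hpc : ((p - 1 : ℕ) : ℤ) = (p : ℤ) - 1 := by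
    rw [Nat.cast_sub hp.one_lt.le, Nat.cast_one]
  set π := IsLocalRing.residue A with hπdef
  set F : IntFun A π p := (Vf p A hA hℓp).mul ((Uf p A π).pow (p - 1)) with hF
  set G : IntFun A π p := (Wf p A hA hℓp).mul ((Jf p A π).pow (p - 1)) with hG
  have hFL : F.toL = uPinv p * ((jF p)⁻¹) ^ (p - 1) := by
    rw [hF, IntFun.toL_mul, IntFun.toL_pow, Vf_toL, Uf_toL, jL_eq_jF]
  have hGL : G.toL = uP p * (jF p) ^ (p - 1) := by
    rw [hG, IntFun.toL_mul, IntFun.toL_pow, Wf_toL, Jf_toL, jL_eq_jF]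
  have hjF0 : jF p ≠ 0 := by
    rw [← jL_eq_jF]
    exact jL_ne_zero Kbar p
  have hFG : G.toL = (F.toL)⁻¹ := by
    rw [hFL, hGL, uPinv_eq_inv, mul_inv, inv_inv, inv_pow, inv_inv]
  have hFk : F.tok ≠ 0 := by
    rw [hF, IntFun.tok_mul, IntFun.tok_pow, Uf_tok]
    exact mul_ne_zero (Vf_tok_ne_zero p A hA hℓp)
      (pow_ne_zero _ (inv_ne_zero (jk_ne_zero _ p)))
  have hGk : G.tok ≠ 0 := by
    rw [hG, IntFun.tok_mul, IntFun.tok_pow, Jf_tok]
    exact mul_ne_zero (Wf_tok_ne_zero p A hA hℓp) (pow_ne_zero _ (jk_ne_zero _ p))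
  have hordF : ∀ P : Place Kbar (FF p),
      P.ord F.toL = P.ord (uPinv p) - ((p : ℤ) - 1) * P.ord (jF p) := by
    intro P
    rw [hFL, P.ord_mul (uPinv_ne_zero p) (pow_ne_zero _ (inv_ne_zero hjF0)),
      ← zpow_natCast, P.ord_zpow, P.ord_inv, hpc]
    ring
  have hval : IsVal x F.toL (c * (a⁻¹) ^ (p - 1)) := by
    rw [hFL]
    exact hxc.mul ((hxa.inv ha0).pow (p - 1))
  have hone := valuation_eq_one_of_fibre hr (residue_eq_zero_of_not_isUnit A) F G hFk hGk hFG
    (cuspZero p)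
    (by
      rw [hordF, ord_cuspZero_uPinv, ord_cuspZero_jF]
      nlinarith)
    x hval
    (by
      intro z hz hzpos
      rw [hordF] at hzpos
      by_cases h1 : z = cuspInf p
      · rw [h1, ord_cuspInf_uPinv, ord_cuspInf_jF] at hzpos
        linarith
      by_cases h2 : z = cuspZero p
      · rw [h2] at hz
        exact H.red_ne (hx.symm.trans hz.symm)
      obtain ⟨h3, h4⟩ := ord_of_ne_cusps hp z h1 h2
      rw [h4] at hzpos
      nlinarith)
    (by
      intro z hz hzneg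
      rw [hordF] at hzneg
      by_cases h1 : z = cuspInf p
      · rw [h1, ord_cuspInf_uPinv, ord_cuspInf_jF] at hzneg
        linarith
      by_cases h2 : z = cuspZero p
      · rw [h2, ord_cuspZero_uPinv, ord_cuspZero_jF] at hzneg
        nlinarith
      obtain ⟨h3, h4⟩ := ord_of_ne_cusps hp z h1 h2
      have h5 := ord_jF_eq_zero_of_red_eq_inf hp hr H z (hz.trans hx) h1
      rw [jL_eq_jF] at h5
      rw [h4, h5] at hzneg
      linarith)
  rw [map_mul, map_pow, map_inv₀] at hone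
  have hva : A.valuation a ≠ 0 := (map_ne_zero _).mpr ha0
  have h6 : A.valuation c = A.valuation c * ((A.valuation a)⁻¹) ^ (p - 1) *
      A.valuation a ^ (p - 1) := by
    rw [mul_assoc, ← mul_pow, inv_mul_cancel₀ hva, one_pow, mul_one]
  rw [h6, hone, one_mul]

include hA hℓp in
/-- **`r x = r 0 ⟹ v_A(u(x))^p · v_A(j(x))^(p-1) = 1`.** -/
theorem valuation_eq_of_red_eq_zero (hp : p.Prime) (hr : IsPlaceReductionModL A p r)
    (H : RedCuspHyp r) (x : Place Kbar (FF p)) {a c : Kbar}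
    (hxa : IsVal x (jF p) a) (hxc : IsVal x (uPinv p) c) (hx : r x = r (cuspZero p)) :
    A.valuation c ^ p * A.valuation a ^ (p - 1) = 1 := by
  haveI : HasPrincipalDivisors Kbar (FF p) :=
    Fermat.Agent.RED.TOP.FbarFacts20.hasPrincipalDivisors_bar p
  have hp1 : (1 : ℤ) < (p : ℤ) := by exact_mod_cast hp.one_lt
  have hpc : ((p - 1 : ℕ) : ℤ) = (p : ℤ) - 1 := by
    rw [Nat.cast_sub hp.one_lt.le, Nat.cast_one]
  set π := IsLocalRing.residue A with hπdef
  set F : IntFun A π p := ((Vf p A hA hℓp).pow p).mul ((Jf p A π).pow (p - 1)) with hF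
  set G : IntFun A π p := ((Wf p A hA hℓp).pow p).mul ((Uf p A π).pow (p - 1)) with hG
  have hFL : F.toL = (uPinv p) ^ p * (jF p) ^ (p - 1) := by
    rw [hF, IntFun.toL_mul, IntFun.toL_pow, IntFun.toL_pow, Vf_toL, Jf_toL, jL_eq_jF]
  have hGL : G.toL = (uP p) ^ p * ((jF p)⁻¹) ^ (p - 1) := by
    rw [hG, IntFun.toL_mul, IntFun.toL_pow, IntFun.toL_pow, Wf_toL, Uf_toL, jL_eq_jF]
  have hjF0 : jF p ≠ 0 := by
    rw [← jL_eq_jF]
    exact jL_ne_zero Kbar p
  have hFG : G.toL = (F.toL)⁻¹ := by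
    rw [hFL, hGL, uPinv_eq_inv, mul_inv, inv_pow, inv_pow, inv_inv]
  have hFk : F.tok ≠ 0 := by
    rw [hF, IntFun.tok_mul, IntFun.tok_pow, IntFun.tok_pow, Jf_tok]
    exact mul_ne_zero (pow_ne_zero _ (Vf_tok_ne_zero p A hA hℓp))
      (pow_ne_zero _ (jk_ne_zero _ p))
  have hGk : G.tok ≠ 0 := by
    rw [hG, IntFun.tok_mul, IntFun.tok_pow, IntFun.tok_pow, Uf_tok]
    exact mul_ne_zero (pow_ne_zero _ (Wf_tok_ne_zero p A hA hℓp))
      (pow_ne_zero _ (inv_ne_zero (jk_ne_zero _ p)))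
  have hordF : ∀ P : Place Kbar (FF p),
      P.ord F.toL = (p : ℤ) * P.ord (uPinv p) + ((p : ℤ) - 1) * P.ord (jF p) := by
    intro P
    rw [hFL, P.ord_mul (pow_ne_zero _ (uPinv_ne_zero p)) (pow_ne_zero _ hjF0),
      ← zpow_natCast, P.ord_zpow, ← zpow_natCast, P.ord_zpow, hpc]
  have hval : IsVal x F.toL (c ^ p * a ^ (p - 1)) := by
    rw [hFL]
    exact (hxc.pow p).mul (hxa.pow (p - 1))
  have hone := valuation_eq_one_of_fibre hr (residue_eq_zero_of_not_isUnit A) F G hFk hGk hFG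
    (cuspInf p)
    (by
      rw [hordF, ord_cuspInf_uPinv, ord_cuspInf_jF]
      nlinarith)
    x hval
    (by
      intro z hz hzpos
      rw [hordF] at hzpos
      by_cases h1 : z = cuspInf p
      · rw [h1, ord_cuspInf_uPinv, ord_cuspInf_jF] at hzpos
        nlinarith
      by_cases h2 : z = cuspZero p
      · rw [h2, ord_cuspZero_uPinv, ord_cuspZero_jF] at hzpos
        nlinarith
      obtain ⟨h3, h4⟩ := ord_of_ne_cusps hp z h1 h2
      have h5 := ord_jF_eq_zero_of_red_eq_zero hp hr H z (hz.trans hx) h2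
      rw [jL_eq_jF] at h5
      rw [h4, h5] at hzpos
      linarith)
    (by
      intro z hz hzneg
      rw [hordF] at hzneg
      by_cases h1 : z = cuspInf p
      · rw [h1] at hz
        exact H.red_ne (hz.trans hx)
      by_cases h2 : z = cuspZero p
      · rw [h2, ord_cuspZero_uPinv, ord_cuspZero_jF] at hzneg
        nlinarith
      obtain ⟨h3, h4⟩ := ord_of_ne_cusps hp z h1 h2
      rw [h4] at hzneg
      nlinarith)
  rwa [map_mul, map_pow, map_pow] at hone

include hA hℓp in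
/-- **(D3')**, `Fact` form. -/
theorem d3_prime_aux (hp : p.Prime) (hr : IsPlaceReductionModL A p r) (H : RedCuspHyp r)
    (x : Place Kbar (FF p)) {a c : Kbar} (ha : a ∉ A)
    (hxa : IsVal x (jF p) a) (hxc : IsVal x (uPinv p) c) :
    (r x = r (cuspInf p) ∨ r x = r (cuspZero p)) ∧
      (r x = r (cuspInf p) ↔ A.valuation c = A.valuation a ^ (p - 1)) := by
  haveI : HasPrincipalDivisors Kbar (FF p) :=
    Fermat.Agent.RED.TOP.FbarFacts20.hasPrincipalDivisors_bar p
  have hxa' : IsVal x (jL Kbar p) a := by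
    rw [jL_eq_jF]
    exact hxa
  have hfib := red_fibre_cusp A hp hr H x ha hxa'
  refine ⟨hfib, ⟨fun hx => valuation_eq_of_red_eq_inf A hA hℓp hp hr H x ha hxa hxc hx, ?_⟩⟩
  intro hval
  rcases hfib with h | h
  · exact h
  exfalso
  have h1 := valuation_eq_of_red_eq_zero A hA hℓp hp hr H x hxa hxc h
  have hV : 1 < A.valuation a := one_lt_valuation_of_notMem ha
  rw [hval, ← pow_mul, ← _root_.pow_add] at h1
  have hpos : (p - 1) * p + (p - 1) ≠ 0 := by
    have := hp.two_le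
    have h2 : 1 ≤ p - 1 := by omega
    positivity
  exact absurd h1 (ne_of_gt (one_lt_pow₀ hV hpos))

end Main

/-! ### Consumer forms -/

section Consumer

variable {p : ℕ} [NeZero p]

/-- **(D3')** (report 1165 (7)): the fibre over a non-integral `j`-invariant and the modular-unit
criterion for the cusp `∞`, for ANY place reduction `r` satisfying `RedCuspHyp`. -/
theorem d3_prime (hp : p.Prime) {ℓ' : ℕ} (hℓ' : ℓ'.Prime) (hℓ'p : ℓ' ≠ p)
    (A' : ValuationSubring Kbar) (hA' : A'.LiesOverPrime ℓ')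
    {r : Place Kbar (FF p) → Place (IsLocalRing.ResidueField A')
      (modularFunctionFieldFullC (IsLocalRing.ResidueField A') p)}
    (hr : IsPlaceReductionModL A' p r) (H : RedCuspHyp r)
    (x : Place Kbar (FF p)) {a c : Kbar} (ha : a ∉ A')
    (hxa : IsVal x (jF p) a) (hxc : IsVal x (uPinv p) c) :
    (r x = r (cuspInf p) ∨ r x = r (cuspZero p)) ∧
      (r x = r (cuspInf p) ↔ A'.valuation c = A'.valuation a ^ (p - 1)) := by
  haveI : Fact ℓ'.Prime := ⟨hℓ'⟩
  have hndvd : ¬ ℓ' ∣ p := fun h => hℓ'p ((Nat.prime_dvd_prime_iff_eq hℓ' hp).mp h)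
  exact d3_prime_aux A' hA' hndvd hp hr H x ha hxa hxc

/-- **(D3')** with `u` in the form `⟨uqInv p Kbar, uqInv_mem p dvd_rfl⟩` and `j = jL Kbar p`
(the literal shape of report 1165 (7)). -/
theorem d3_prime_uInv (hp : p.Prime) {ℓ' : ℕ} (hℓ' : ℓ'.Prime) (hℓ'p : ℓ' ≠ p)
    (A' : ValuationSubring Kbar) (hA' : A'.LiesOverPrime ℓ')
    {r : Place Kbar (FF p) → Place (IsLocalRing.ResidueField A')
      (modularFunctionFieldFullC (IsLocalRing.ResidueField A') p)}
    (hr : IsPlaceReductionModL A' p r) (H : RedCuspHyp r)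
    (x : Place Kbar (FF p)) {a c : Kbar} (ha : a ∉ A')
    (hxa : IsVal x (jL Kbar p) a)
    (hxc : IsVal x (⟨uqInv p Kbar, uqInv_mem p dvd_rfl⟩ : FF p) c) :
    (r x = r (cuspInf p) ∨ r x = r (cuspZero p)) ∧
      (r x = r (cuspInf p) ↔ A'.valuation c = A'.valuation a ^ (p - 1)) := by
  rw [jL_eq_jF] at hxa
  exact d3_prime hp hℓ' hℓ'p A' hA' hr H x ha hxa hxc

/-- **The hypothesis `hD3u` of `E3Asm58.e3Place_of_u`** for `u = uPinv p = Δ(q)/Δ(q^p)`, from
`RedCuspHyp` for every place reduction. -/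
theorem hD3u_of_redCuspHyp (hp : p.Prime)
    (hCusp : ∀ {ℓ' : ℕ}, ℓ'.Prime → ℓ' ≠ p → ∀ A' : ValuationSubring Kbar,
      A'.LiesOverPrime ℓ' →
      ∀ r : Place Kbar (FF p) → Place (IsLocalRing.ResidueField A')
          (modularFunctionFieldFullC (IsLocalRing.ResidueField A') p),
        IsPlaceReductionModL A' p r → RedCuspHyp r) :
    ∀ {ℓ' : ℕ}, ℓ'.Prime → ℓ' ≠ p → ∀ A' : ValuationSubring Kbar, A'.LiesOverPrime ℓ' →
      ∀ r : Place Kbar (FF p) → Place (IsLocalRing.ResidueField A')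
          (modularFunctionFieldFullC (IsLocalRing.ResidueField A') p),
        IsPlaceReductionModL A' p r → ∀ (y : Place Kbar (FF p)) {a c : Kbar}, a ∉ A' →
          IsVal y (jF p) a → IsVal y (uPinv p) c →
            (r y = r (cuspInf p) ↔ A'.valuation c = A'.valuation a ^ (p - 1)) :=
  fun hℓ' hℓ'p A' hA' r hr y _ _ ha hya hyc =>
    (d3_prime hp hℓ' hℓ'p A' hA' hr (hCusp hℓ' hℓ'p A' hA' r hr) y ha hya hyc).2

end Consumer

end Fermat.Agent.MAZ.D3Prime24
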