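/-
Programme MAZ (S15), chain link (7) **D3'** (helper24), file 4: **`E3Asm58.D3Hyp p` holds
unconditionally** for every prime `p` — the single remaining hypothesis of `EF86.E3Final.e3`.

`d3_prime` (file 3) + helper34's unconditional `RedFibre34.redCuspHyp_modL` (`CuspFinal.lean`).
-/
import Mathlib
import Fermat.Agent.MAZ.D3Prime24.Final
import Fermat.Agent.MAZ.RedFibre34.CuspFinal
import Fermat.Agent.MAZ.E3Asm58.HalfB

set_option autoImplicit false
set_option linter.unusedSectionVars false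
set_option linter.style.haveILetI false
set_option synthInstance.maxHeartbeats 400000

noncomputable section

open HahnSeries IntermediateField AlgebraicCurve ModularCurve

namespace Fermat.Agent.MAZ.D3Prime24

open Fermat.Agent.X0 Fermat.Agent.X0.FF Fermat.Agent.MW.Bridge34
open Fermat.Agent.MAZ.HeckeCusp89 Fermat.Agent.MAZ.RedFibre34 Fermat.Agent.MAZ.Ogg24
open Fermat.Agent.MAZ.E3Asm58

variable {p : ℕ} [NeZero p]

/-- **(D3'), unconditional**: for every place reduction `r` of level `p` modulo `A' | ℓ' ≠ p`. -/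
theorem d3_prime_final (hp : p.Prime) {ℓ' : ℕ} (hℓ' : ℓ'.Prime) (hℓ'p : ℓ' ≠ p)
    (A' : ValuationSubring Kbar) (hA' : A'.LiesOverPrime ℓ')
    {r : Place Kbar (FF p) → Place (IsLocalRing.ResidueField A')
      (modularFunctionFieldFullC (IsLocalRing.ResidueField A') p)}
    (hr : IsPlaceReductionModL A' p r)
    (x : Place Kbar (FF p)) {a c : Kbar} (ha : a ∉ A')
    (hxa : IsVal x (jF p) a) (hxc : IsVal x (uPinv p) c) :
    (r x = r (cuspInf p) ∨ r x = r (cuspZero p)) ∧
      (r x = r (cuspInf p) ↔ A'.valuation c = A'.valuation a ^ (p - 1)) := by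
  haveI : HasPrincipalDivisors Kbar (FF p) :=
    Fermat.Agent.RED.TOP.FbarFacts20.hasPrincipalDivisors_bar p
  exact d3_prime hp hℓ' hℓ'p A' hA' hr (Fermat.Agent.MAZ.RedFibre34.redCuspHyp_modL A' hp hℓ' hℓ'p hA' hr) x ha hxa hxc

/-- **`D3Hyp p`** (the consumer shape of the architect, `E3Asm58/HalfB.lean`), unconditionally. -/
theorem d3Hyp (hp : p.Prime) : D3Hyp p := by
  intro ℓ' hℓ' hℓ'p A' hA' r hr x a c ha hxa hxc
  exact d3_prime_final hp hℓ' hℓ'p A' hA' hr x ha (isVal_iff_ord.mpr (Or.inr hxa)) hxc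

end Fermat.Agent.MAZ.D3Prime24
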