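/-
Programme MAZ (S15), chain link (7) (helper24), file 5: **the moduli input (E3) is unconditional**:
`EF86.E3Final.e3` (helper86) with its single hypothesis `D3Hyp p` discharged by `d3Hyp`.
-/
import Mathlib
import Fermat.Agent.MAZ.D3Prime24.Hyp
import Fermat.Agent.MAZ.EF86.E3Final

set_option autoImplicit false
set_option synthInstance.maxHeartbeats 400000

open AlgebraicCurve ModularCurve WeierstrassCurve WeierstrassCurve.Affine

noncomputable section

namespace Fermat.Agent.MAZ.D3Prime24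

open Fermat.Agent.MAZ.E3Asm58

/-- **(E3), place form, unconditional**: the arguments `x`, `hxfix`, `hx` of
`Endgame88.s15_of_inputs(_order)`. -/
theorem e3_uncond {p : ℕ} [NeZero p] (hp : p.Prime) (hp2 : p ≠ 2) (W : WeierstrassCurve ℤ)
    (hΔ : W.Δ ≠ 0) (Q : ((W.map (Int.castRingHom ℚ))⁄(AlgebraicClosure ℚ)).Point)
    (hQfix : ∀ σ : AlgebraicClosure ℚ ≃ₐ[ℚ] AlgebraicClosure ℚ, σ • Q = Q)
    (hQord : addOrderOf Q = p)
    (h2Δ : (2 : ℤ) ∣ W.Δ) (h2c₄ : ¬ (2 : ℤ) ∣ W.c₄) :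
    E3Place p W Q :=
  Fermat.Agent.MAZ.EF86.E3Final.e3 hp hp2 (d3Hyp hp) W hΔ Q hQfix hQord h2Δ h2c₄

end Fermat.Agent.MAZ.D3Prime24
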